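/-
Programme T1B (row 38 / S33), brick F2' TEST ELEMENT, LOCAL PART (helper31; global part =
helper79, `T1B/TestElt79`).  Mathlib only.

Setting (the vocabulary of `ES/N34/NodalCore13`, unfolded): `R` a commutative ring, `π : R`,
`F` a field over `R`, a chart `B : Subalgebra R F`, the two Gauss valuation rings `O1 O2` of `F`
with `B ⊆ O1 ⊓ O2`, and `B` `π`-saturated in `O1 ⊓ O2`.  "The component `j` does not pass through
the prime `𝔪` of `B`" is
  `OffBranch π B Oj 𝔪 := ∃ e : B, e ∉ 𝔪 ∧ ∃ c ∈ Oj, (e : F) = algebraMap R F π * c`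
(`NodalCore13.OffBranch`, stated unfolded here so that the two are definitionally equal).

A CUSP SECTION of the chart is an `R`-algebra retraction `ev : B →ₐ[R] R` (the constant term of
the `q`-expansion at a cusp contained in the chart).

* `mem_of_pow_mul_mem` : iterated saturation: `f ∈ O1 ⊓ O2` and `π ^ k f ∈ B` give `f ∈ B`.
* `offBranch_of_section` : if some `e ∈ B` with `ev e` a unit lies in `π Oj`, then the component `j`
  passes through no prime `𝔪 ⊇ ker ev` (the closed point of the section is not on branch `j`).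
* `exists_not_mem_of_not_offBranch` : hence a prime `𝔪` on branch `j` does not contain `ker ev`:
  there is `d ∈ ker ev`, `d ∉ 𝔪`.
* `exists_denominator` : **the local lemma**.  If `h ∈ O1 ⊓ O2` has, on the generic fibre of the
  chart, at worst a pole of order `≤ m` along the section and no other pole
  (`∀ d ∈ ker ev, ∃ k, π ^ k (d ^ m h) ∈ B`), then `h ∈ B_𝔪` for every prime `𝔪` of `B` on branch
  `j`: `∃ d a : B, d ∉ 𝔪 ∧ d * h = a`.
* `exists_denominator_pair` : the packaged form for a vertical pair `h h' = π ^ n` with `h ∈ B`.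
* `not_offBranch_comap`, `exists_denominator_map` : change of level (a subfield `F' ⊆ F` with chart
  `B' ⊆ B`): a prime of `B` on branch `j` restricts to a prime of `B'` on branch `j`, and
  denominators go up.
-/
import Mathlib

set_option autoImplicit false

namespace Fermat.Agent.T1B.TestElt31

variable {R F : Type*} [CommRing R] [Field F] [Algebra R F]

/-- "The component `j` does not pass through `𝔪`" (`ES/N34/NodalCore13.OffBranch`, unfolded). -/
def OffBranch (π : R) (B : Subalgebra R F) (Oj : ValuationSubring F) (𝔪 : Ideal B) : Prop :=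
  ∃ e : B, e ∉ 𝔪 ∧ ∃ c ∈ Oj, (e : F) = algebraMap R F π * c

/-- **Iterated saturation.** If `B` is `π`-saturated in `O1 ⊓ O2` then `f ∈ O1 ⊓ O2` and
`π ^ k * f ∈ B` imply `f ∈ B`. -/
theorem mem_of_pow_mul_mem (π : R) (B : Subalgebra R F) (O1 O2 : ValuationSubring F)
    (sat : ∀ b ∈ B, ∀ c : F, c ∈ O1 → c ∈ O2 → b = algebraMap R F π * c → c ∈ B)
    {f : F} (h1 : f ∈ O1) (h2 : f ∈ O2) (hπ1 : algebraMap R F π ∈ O1)
    (hπ2 : algebraMap R F π ∈ O2) :
    ∀ k : ℕ, algebraMap R F π ^ k * f ∈ B → f ∈ B := by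
  intro k
  induction k with
  | zero => intro h; simpa using h
  | succ k ih =>
    intro h
    apply ih
    refine sat _ h _ (O1.mul_mem _ _ (pow_mem hπ1 k) h1) (O2.mul_mem _ _ (pow_mem hπ2 k) h2) ?_
    rw [pow_succ]
    ring

/-- The closed point of a cusp section is not on branch `j`, as soon as some function of the chart
which is a unit along the section vanishes identically on the component `j`. -/
theorem offBranch_of_section (π : R) (B : Subalgebra R F) (Oj : ValuationSubring F)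
    (ev : B →ₐ[R] R) (e : B) (he : IsUnit (ev e))
    (heπ : ∃ c ∈ Oj, (e : F) = algebraMap R F π * c)
    (𝔪 : Ideal B) (h𝔪 : 𝔪 ≠ ⊤) (hker : ∀ d : B, ev d = 0 → d ∈ 𝔪) :
    OffBranch π B Oj 𝔪 := by
  refine ⟨e, fun hem => h𝔪 ?_, heπ⟩
  -- `e - ev e ∈ ker ev ⊆ 𝔪`, so the unit `ev e` lies in `𝔪`
  have h0 : ev (e - algebraMap R B (ev e)) = 0 := by
    rw [map_sub, AlgHom.commutes, Algebra.algebraMap_self_apply, sub_self]
  have h1 : algebraMap R B (ev e) ∈ 𝔪 := by
    have := 𝔪.sub_mem hem (hker _ h0)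
    rwa [sub_sub_cancel] at this
  obtain ⟨u, hu⟩ := he
  have h2 : algebraMap R B (↑u⁻¹ : R) * algebraMap R B (ev e) = 1 := by
    rw [← map_mul, ← hu, Units.inv_mul, map_one]
  rw [Ideal.eq_top_iff_one, ← h2]
  exact 𝔪.mul_mem_left _ h1

/-- A prime on branch `j` does not contain the kernel of a cusp section whose closed point is off
branch `j`. -/
theorem exists_not_mem_of_not_offBranch (π : R) (B : Subalgebra R F) (Oj : ValuationSubring F)
    (ev : B →ₐ[R] R) (e : B) (he : IsUnit (ev e))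
    (heπ : ∃ c ∈ Oj, (e : F) = algebraMap R F π * c)
    (𝔪 : Ideal B) (h𝔪 : 𝔪 ≠ ⊤) (hoff : ¬ OffBranch π B Oj 𝔪) :
    ∃ d : B, ev d = 0 ∧ d ∉ 𝔪 := by
  by_contra hcon
  simp only [not_exists, not_and, not_not] at hcon
  exact hoff (offBranch_of_section π B Oj ev e he heπ 𝔪 h𝔪 hcon)

/-- **The local lemma for the test element.**  `B` a `π`-saturated chart inside `O1 ⊓ O2`,
`ev : B →ₐ[R] R` a cusp section whose closed point is off branch `j` (witness `e`), `h ∈ O1 ⊓ O2`
with at worst a pole of order `≤ m` along the section on the generic fibre of the chart.  Then `h`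
lies in the local ring `B_𝔪` of every prime `𝔪` of `B` on branch `j`. -/
theorem exists_denominator (π : R) (B : Subalgebra R F) (O1 O2 : ValuationSubring F)
    (leO1 : ∀ x ∈ B, x ∈ O1) (leO2 : ∀ x ∈ B, x ∈ O2)
    (sat : ∀ b ∈ B, ∀ c : F, c ∈ O1 → c ∈ O2 → b = algebraMap R F π * c → c ∈ B)
    (ev : B →ₐ[R] R) (Oj : ValuationSubring F) (e : B) (he : IsUnit (ev e))
    (heπ : ∃ c ∈ Oj, (e : F) = algebraMap R F π * c)
    {h : F} (h1 : h ∈ O1) (h2 : h ∈ O2) (m : ℕ)
    (hpole : ∀ d : B, ev d = 0 → ∃ k : ℕ, algebraMap R F π ^ k * ((d : F) ^ m * h) ∈ B)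
    (𝔪 : Ideal B) [h𝔪 : 𝔪.IsPrime] (hoff : ¬ OffBranch π B Oj 𝔪) :
    ∃ d a : B, d ∉ 𝔪 ∧ (d : F) * h = (a : F) := by
  obtain ⟨d, hd0, hd⟩ := exists_not_mem_of_not_offBranch π B Oj ev e he heπ 𝔪 h𝔪.ne_top hoff
  obtain ⟨k, hk⟩ := hpole d hd0
  have hπB : algebraMap R F π ∈ B := B.algebraMap_mem π
  have hmem : (d : F) ^ m * h ∈ B :=
    mem_of_pow_mul_mem π B O1 O2 sat
      (O1.mul_mem _ _ (pow_mem (leO1 _ d.2) m) h1) (O2.mul_mem _ _ (pow_mem (leO2 _ d.2) m) h2)
      (leO1 _ hπB) (leO2 _ hπB) k hk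
  refine ⟨d ^ m, ⟨_, hmem⟩, fun hdm => hd (h𝔪.mem_of_pow_mem m hdm), ?_⟩
  push_cast
  rfl

/-- **Packaged form for a vertical pair.**  `h ∈ B` and `h'` with `h * h' = π ^ n`, `h' ∈ O1 ⊓ O2`
with at worst a pole of order `≤ m` along a cusp section off branch `j`: at every prime `𝔪` of `B`
on branch `j` both `h` and `h'` lie in `B_𝔪` (common denominator `d ∉ 𝔪`), and the relation
`h * h' = π ^ n` holds between the numerators up to `d`. -/
theorem exists_denominator_pair (π : R) (B : Subalgebra R F) (O1 O2 : ValuationSubring F)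
    (leO1 : ∀ x ∈ B, x ∈ O1) (leO2 : ∀ x ∈ B, x ∈ O2)
    (sat : ∀ b ∈ B, ∀ c : F, c ∈ O1 → c ∈ O2 → b = algebraMap R F π * c → c ∈ B)
    (ev : B →ₐ[R] R) (Oj : ValuationSubring F) (e : B) (he : IsUnit (ev e))
    (heπ : ∃ c ∈ Oj, (e : F) = algebraMap R F π * c)
    {h h' : F} (n : ℕ) (hh : h * h' = algebraMap R F π ^ n) (hB : h ∈ B)
    (h1' : h' ∈ O1) (h2' : h' ∈ O2) (m : ℕ)
    (hpole : ∀ d : B, ev d = 0 → ∃ k : ℕ, algebraMap R F π ^ k * ((d : F) ^ m * h') ∈ B)
    (𝔪 : Ideal B) [h𝔪 : 𝔪.IsPrime] (hoff : ¬ OffBranch π B Oj 𝔪) :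
    ∃ d a a' : B, d ∉ 𝔪 ∧ (d : F) * h = (a : F) ∧ (d : F) * h' = (a' : F) ∧
      a * a' = d * d * algebraMap R B π ^ n := by
  obtain ⟨d, a', hd, hda'⟩ :=
    exists_denominator π B O1 O2 leO1 leO2 sat ev Oj e he heπ h1' h2' m hpole 𝔪 hoff
  refine ⟨d, d * ⟨h, hB⟩, a', hd, by push_cast; rfl, hda', ?_⟩
  apply Subtype.ext
  push_cast
  rw [← hda']
  calc (d : F) * h * ((d : F) * h') = (d : F) * (d : F) * (h * h') := by ring
    _ = (d : F) * (d : F) * algebraMap R F π ^ n := by rw [hh]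

/-! ### Change of level -/

section Level

variable {F' : Type*} [Field F'] [Algebra R F']

/-- A prime of the big chart on branch `j` restricts to a prime of the small chart on branch
`j`. -/
theorem not_offBranch_comap (π : R) (φ : F' →ₐ[R] F) (B' : Subalgebra R F') (B : Subalgebra R F)
    (hB : ∀ x ∈ B', φ x ∈ B) (Oj : ValuationSubring F)
    (𝔪 : Ideal B) (hoff : ¬ OffBranch π B Oj 𝔪) :
    ¬ OffBranch π B' (Oj.comap (φ : F' →+* F))
      (𝔪.comap ((φ.comp B'.val).codRestrict B (fun x => hB x x.2) : B' →+* B)) := by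
  rintro ⟨e', he', c', hc', hec'⟩
  refine hoff ⟨⟨φ e', hB _ e'.2⟩, he', φ c', hc', ?_⟩
  show φ (e' : F') = algebraMap R F π * φ c'
  rw [hec', map_mul, AlgHom.commutes]

/-- Denominators go up along a change of level. -/
theorem exists_denominator_map (φ : F' →ₐ[R] F) (B' : Subalgebra R F') (B : Subalgebra R F)
    (hB : ∀ x ∈ B', φ x ∈ B) (𝔪 : Ideal B) {h : F'}
    (hden : ∃ d a : B', d ∉ 𝔪.comap
        ((φ.comp B'.val).codRestrict B (fun x => hB x x.2) : B' →+* B) ∧
      (d : F') * h = (a : F')) :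
    ∃ d a : B, d ∉ 𝔪 ∧ (d : F) * φ h = (a : F) := by
  obtain ⟨d, a, hd, hda⟩ := hden
  refine ⟨⟨φ d, hB _ d.2⟩, ⟨φ a, hB _ a.2⟩, hd, ?_⟩
  show φ (d : F') * φ h = φ (a : F')
  rw [← map_mul, hda]

end Level

end Fermat.Agent.T1B.TestElt31
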